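import Fermat.Agent.Milgram.Lattice

/-!
# Consequences of Milgram's formula

The signature modulo eight is read off the discriminant form; the cases of determinant one, two
and three; Gauss's sum of modulus divisible by four.
-/

set_option autoImplicit false

noncomputable section

namespace FA.Milgram

open Complex Matrix
open IndefiniteUnimodular (EvenForm posIndex negIndex)
open scoped Real

variable {n m : ℕ} {A : Matrix (Fin n) (Fin n) ℤ} {B : Matrix (Fin m) (Fin m) ℤ}

theorem eight_dvd_of_exp {x : ℤ} (h : cexp (π * I * (x : ℂ) / 4) = 1) : 8 ∣ x := by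
  obtain ⟨k, hk⟩ := Complex.exp_eq_one_iff.1 h
  refine ⟨k, ?_⟩
  have : (x : ℂ) = 8 * k := by
    refine mul_left_cancel₀ (mul_ne_zero (ofReal_ne_zero.2 Real.pi_ne_zero) I_ne_zero) ?_
    linear_combination 4 * hk
  exact_mod_cast this

theorem signature_of_equiv (hA : A.IsSymm) (hA0 : A.det ≠ 0) (hAe : EvenForm A) (hB : B.IsSymm)
    (hB0 : B.det ≠ 0) (hBe : EvenForm B) (e : DiscGroup A ≃ DiscGroup B)
    (h : ∀ q, ∃ k : ℤ, dualPair B (Quotient.out (e q)) (Quotient.out (e q)) -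
      dualPair A (Quotient.out q) (Quotient.out q) = (2 * k : ℤ)) :
    (8 : ℤ) ∣ ((posIndex A : ℤ) - negIndex A) - ((posIndex B : ℤ) - negIndex B) := by
  have hG : gaussSum A = gaussSum B := by
    rw [gaussSum, gaussSum, ← finsum_comp_equiv e]
    refine finsum_congr fun q => ?_
    obtain ⟨k, hk⟩ := h q
    rw [phase, phase, exp_eq_exp_iff_exists_int]
    refine ⟨-k, ?_⟩
    rw [show dualPair B (Quotient.out (e q)) (Quotient.out (e q)) =
      dualPair A (Quotient.out q) (Quotient.out q) + ((2 * k : ℤ) : ℚ) by linarith]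
    push_cast
    ring
  have hdet : A.det.natAbs = B.det.natAbs := by
    rw [← card_discGroup hA0, ← card_discGroup hB0, Nat.card_congr e]
  rw [milgram hA hA0 hAe, milgram hB hB0 hBe, hdet] at hG
  have hne : (√(B.det.natAbs : ℝ) : ℂ) ≠ 0 := ofReal_ne_zero.2
    (Real.sqrt_pos.2 (Nat.cast_pos.2 (Int.natAbs_pos.2 hB0))).ne'
  refine eight_dvd_of_exp ?_
  push_cast
  rw [show π * I * ((posIndex A : ℂ) - negIndex A - ((posIndex B : ℂ) - negIndex B)) / 4 =
    π * I * ((posIndex A : ℂ) - negIndex A) / 4 - π * I * ((posIndex B : ℂ) - negIndex B) / 4 by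
      ring, Complex.exp_sub, mul_left_cancel₀ hne hG, div_self (Complex.exp_ne_zero _)]

theorem phase_out_zero (hs : A.IsSymm) (hd : A.det ≠ 0) (he : EvenForm A) :
    phase A (Quotient.out (0 : DiscGroup A)) = 1 := by
  rw [phase_periodic hs hd he (y' := 0)
    ((Submodule.Quotient.mk_out (0 : DiscGroup A)).trans (Submodule.Quotient.mk_zero _).symm)]
  have h0 : ratVec (0 : Fin n → ℤ) = 0 := funext fun i => by simp [ratVec]
  simp [phase, dualPair, h0]

theorem phase_out_neg (hs : A.IsSymm) (hd : A.det ≠ 0) (he : EvenForm A) (q : DiscGroup A) :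
    phase A (Quotient.out (-q)) = phase A (Quotient.out q) := by
  rw [phase_periodic hs hd he (y' := -Quotient.out q) (by
    rw [Submodule.Quotient.mk_neg, Submodule.Quotient.mk_out, Submodule.Quotient.mk_out]),
    phase, phase, dualPair, dualPair,
    show ratVec (-Quotient.out q) = -ratVec (Quotient.out q) from funext fun i => by simp [ratVec],
    Matrix.mulVec_neg, neg_dotProduct, dotProduct_neg, neg_neg]

theorem signature_det_one (hs : A.IsSymm) (hd : A.det.natAbs = 1) (he : EvenForm A) :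
    (8 : ℤ) ∣ (posIndex A : ℤ) - negIndex A := by
  have hd0 : A.det ≠ 0 := fun h => by simp [h] at hd
  have hu : Subsingleton (DiscGroup A) :=
    (Nat.card_eq_one_iff_unique.1 ((card_discGroup hd0).trans hd)).1
  have : Fintype (DiscGroup A) := Fintype.ofSubsingleton 0
  refine eight_dvd_of_exp ?_
  have h := milgram hs hd0 he
  rw [gaussSum, finsum_eq_sum_of_fintype, Fintype.sum_subsingleton _ (0 : DiscGroup A),
    phase_out_zero hs hd0 he, hd, Nat.cast_one, Real.sqrt_one, ofReal_one, one_mul] at h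
  push_cast
  exact h.symm

/-- If `√d exp (i θ)` is at distance `c` from `1`. -/
theorem cos_of_dist {d c θ : ℝ} {w : ℂ} (hd : 0 ≤ d) (hw : ‖w‖ = c)
    (h : 1 + w = (√d : ℂ) * cexp (θ * I)) : 2 * √d * Real.cos θ = d + 1 - c ^ 2 := by
  have e : Complex.normSq w = c ^ 2 := by rw [Complex.normSq_eq_norm_sq, hw]
  rw [show w = (√d : ℂ) * cexp (θ * I) - 1 by rw [← h]; ring, Complex.normSq_apply] at e
  simp only [sub_re, sub_im, mul_re, mul_im, ofReal_re, ofReal_im, exp_ofReal_mul_I_re,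
    exp_ofReal_mul_I_im, one_re, one_im, zero_mul, sub_zero, add_zero] at e
  linear_combination -e + (√d) ^ 2 * Real.sin_sq_add_cos_sq θ + Real.sq_sqrt hd

theorem phase_norm (y : Fin n → ℤ) : ‖phase A y‖ = 1 := by
  rw [phase, show π * I * ((dualPair A y y : ℚ) : ℂ) =
    ((π * (dualPair A y y : ℝ) : ℝ) : ℂ) * I by push_cast; ring]
  exact Complex.norm_exp_ofReal_mul_I _

theorem signature_det_two (hs : A.IsSymm) (hd : A.det.natAbs = 2) (he : EvenForm A) :
    (8 : ℤ) ∣ (posIndex A : ℤ) - negIndex A - 1 ∨ (8 : ℤ) ∣ (posIndex A : ℤ) - negIndex A + 1 := by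
  classical
  have hd0 : A.det ≠ 0 := fun h => by simp [h] at hd
  have := finite_discGroup hd0
  have := Fintype.ofFinite (DiscGroup A)
  have hcard : Fintype.card (DiscGroup A) = 2 := by
    rw [← Nat.card_eq_fintype_card, card_discGroup hd0, hd]
  obtain ⟨x, hx⟩ := Fintype.exists_ne_of_one_lt_card (by omega) (0 : DiscGroup A)
  have huniv : ({0, x} : Finset (DiscGroup A)) = Finset.univ :=
    Finset.eq_univ_of_card _ (by rw [Finset.card_pair hx.symm, hcard])
  have h := milgram hs hd0 he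
  rw [gaussSum, finsum_eq_sum_of_fintype, ← huniv, Finset.sum_pair hx.symm,
    phase_out_zero hs hd0 he, hd, show π * I * ((posIndex A : ℂ) - negIndex A) / 4 =
      ((π * (((posIndex A : ℤ) - negIndex A : ℤ) : ℝ) / 4 : ℝ) : ℂ) * I by push_cast; ring] at h
  have hc := cos_of_dist (Nat.cast_nonneg 2) (phase_norm _) h
  have hcos : Real.cos (π * (((posIndex A : ℤ) - negIndex A : ℤ) : ℝ) / 4) =
      Real.cos (π / 4) := by
    rw [Real.cos_pi_div_four]
    have h2 : √(2 : ℝ) * √2 = 2 := Real.mul_self_sqrt (by norm_num)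
    refine mul_left_cancel₀ (show 2 * √((2 : ℕ) : ℝ) ≠ 0 by positivity) ?_
    rw [hc]
    push_cast
    linear_combination -h2
  obtain ⟨k, hk | hk⟩ := Real.cos_eq_cos_iff.1 hcos
  · refine .inl ⟨-k, ?_⟩
    have : (((posIndex A : ℤ) - negIndex A - 1 : ℤ) : ℝ) = ((8 * -k : ℤ) : ℝ) := by
      refine mul_left_cancel₀ Real.pi_ne_zero ?_
      push_cast at hk ⊢
      linear_combination -4 * hk
    exact_mod_cast this
  · refine .inr ⟨k, ?_⟩
    have : (((posIndex A : ℤ) - negIndex A + 1 : ℤ) : ℝ) = ((8 * k : ℤ) : ℝ) := by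
      refine mul_left_cancel₀ Real.pi_ne_zero ?_
      push_cast at hk ⊢
      linear_combination 4 * hk
    exact_mod_cast this

theorem signature_det_three (hs : A.IsSymm) (hd : A.det.natAbs = 3) (he : EvenForm A) :
    (8 : ℤ) ∣ (posIndex A : ℤ) - negIndex A - 2 ∨ (8 : ℤ) ∣ (posIndex A : ℤ) - negIndex A + 2 := by
  classical
  have hd0 : A.det ≠ 0 := fun h => by simp [h] at hd
  have := finite_discGroup hd0
  have := Fintype.ofFinite (DiscGroup A)
  have hcard : Fintype.card (DiscGroup A) = 3 := by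
    rw [← Nat.card_eq_fintype_card, card_discGroup hd0, hd]
  obtain ⟨x, hx⟩ := Fintype.exists_ne_of_one_lt_card (by omega) (0 : DiscGroup A)
  have h3 : (3 : ℕ) • x = 0 := hcard ▸ card_nsmul_eq_zero
  have hxx : x ≠ -x := fun e => hx (by
    have h2 : x + x = 0 := eq_neg_iff_add_eq_zero.1 e
    rwa [succ_nsmul, two_nsmul, h2, zero_add] at h3)
  have huniv : ({0, x, -x} : Finset (DiscGroup A)) = Finset.univ :=
    Finset.eq_univ_of_card _ (by
      rw [Finset.card_eq_three.2 ⟨0, x, -x, hx.symm, fun h => hx (neg_eq_zero.1 h.symm), hxx, rfl⟩,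
        hcard])
  have h := milgram hs hd0 he
  rw [gaussSum, finsum_eq_sum_of_fintype, ← huniv,
    Finset.sum_insert (by simp [hx, eq_comm (a := (0 : DiscGroup A))]),
    Finset.sum_pair hxx, phase_out_zero hs hd0 he, phase_out_neg hs hd0 he, ← two_mul, hd,
    show π * I * ((posIndex A : ℂ) - negIndex A) / 4 =
      ((π * (((posIndex A : ℤ) - negIndex A : ℤ) : ℝ) / 4 : ℝ) : ℂ) * I by push_cast; ring] at h
  have hc := cos_of_dist (c := 2) (Nat.cast_nonneg 3) (by
    rw [norm_mul, phase_norm, mul_one, Complex.norm_two]) h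
  have hcos : Real.cos (π * (((posIndex A : ℤ) - negIndex A : ℤ) : ℝ) / 4) = 0 := by
    refine (mul_eq_zero.1 (hc.trans ?_)).resolve_left (by positivity)
    norm_num
  obtain ⟨k, hk⟩ := Real.cos_eq_zero_iff.1 hcos
  have : (((posIndex A : ℤ) - negIndex A : ℤ) : ℝ) = ((4 * k + 2 : ℤ) : ℝ) := by
    refine mul_left_cancel₀ Real.pi_ne_zero ?_
    push_cast at hk ⊢
    linear_combination 4 * hk
  have h4 : (posIndex A : ℤ) - negIndex A = 4 * k + 2 := Int.cast_injective this
  obtain ⟨t, rfl | rfl⟩ := Int.even_or_odd' k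
  · exact .inl ⟨t, by omega⟩
  · exact .inr ⟨t + 1, by omega⟩

/-- **Gauss's sum of modulus divisible by four.** -/
theorem gauss_four {a : ℕ} (ha : 0 < a) :
    ∑ x ∈ Finset.range (4 * a), cexp (2 * π * I * (x : ℂ) ^ 2 / ((4 * a : ℕ) : ℂ)) =
      (1 + I) * (√((4 * a : ℕ) : ℝ) : ℂ) := by
  have haC : (a : ℂ) ≠ 0 := Nat.cast_ne_zero.2 ha.ne'
  have hS := lineSum_eq ha
  rw [lineSum, Fin.sum_univ_eq_sum_range fun r => cexp (π * I * (r : ℂ) ^ 2 / (2 * a))] at hS
  have e : ∀ r : ℕ, cexp (2 * π * I * ((2 * a + r : ℕ) : ℂ) ^ 2 / ((4 * a : ℕ) : ℂ)) =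
      cexp (π * I * (r : ℂ) ^ 2 / (2 * a)) := fun r => by
    refine exp_eq_exp_iff_exists_int.2 ⟨a + r, ?_⟩
    push_cast
    field_simp
    ring
  have e' : ∀ r : ℕ, cexp (2 * π * I * (r : ℂ) ^ 2 / ((4 * a : ℕ) : ℂ)) =
      cexp (π * I * (r : ℂ) ^ 2 / (2 * a)) := fun r => by
    congr 1
    push_cast
    field_simp
    ring
  rw [show 4 * a = 2 * a + 2 * a by ring, Finset.sum_range_add]
  simp only [show 2 * a + 2 * a = 4 * a by ring, e, e', hS]
  rw [show ((4 * a : ℕ) : ℝ) = 2 * (2 * a) by push_cast; ring, Real.sqrt_mul (by norm_num),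
    show π * I / 4 = ((π / 4 : ℝ) : ℂ) * I by push_cast; ring, exp_mul_I, ← ofReal_cos,
    ← ofReal_sin, Real.cos_pi_div_four, Real.sin_pi_div_four]
  have h2 : (√2 : ℂ) ^ 2 = 2 := by
    rw [← ofReal_pow, Real.sq_sqrt (by norm_num), ofReal_ofNat]
  have h4 : (√((a : ℝ) * 4) : ℂ) = (√(a : ℝ) : ℂ) * 2 := by
    rw [Real.sqrt_mul (Nat.cast_nonneg a), show (4 : ℝ) = 2 ^ 2 by norm_num,
      Real.sqrt_sq (by norm_num), ofReal_mul, ofReal_ofNat]
  push_cast
  ring_nf
  rw [h2, h4]
  ring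

end FA.Milgram

end
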