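import Mathlib.NumberTheory.ModularForms.JacobiTheta.OneVariable
import Mathlib.Analysis.SpecialFunctions.Gaussian.PoissonSummation
import Mathlib.Analysis.Normed.Group.Tannery
import Mathlib.Tactic

/-!
# Quadratic Gauss sums of even modulus

`∑ exp (π i r² / 2a)` over `r` modulo `2a` is `√(2a) exp (π i / 4)`: the theta series near the cusp
`1 / 2a`, by two inversions.
-/

set_option autoImplicit false

noncomputable section

namespace FA.Milgram

open Complex Filter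
open scoped Real Topology

/-- `∑ exp (π i r² / 2a)` over `r < 2a`. -/
def lineSum (a : ℕ) : ℂ := ∑ r : Fin (2 * a), cexp (π * I * (r : ℕ) ^ 2 / (2 * a))

theorem summable_theta {τ : ℂ} (hτ : 0 < τ.im) :
    Summable fun n : ℤ => cexp (π * I * (n : ℂ) ^ 2 * τ) :=
  ((summable_jacobiTheta₂_term_iff 0 τ).2 hτ).congr fun n => by simp [jacobiTheta₂_term]

theorem theta_two_mul_add (k : ℕ) (τ : ℂ) : jacobiTheta (2 * k + τ) = jacobiTheta τ := by
  induction k with
  | zero => simp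
  | succ k ih =>
    rw [show 2 * ((k + 1 : ℕ) : ℂ) + τ = 2 + (2 * k + τ) by push_cast; ring, jacobiTheta_two_add,
      ih]

theorem theta_inversion {τ : ℂ} (hτ : 0 < τ.im) :
    jacobiTheta (-1 / τ) = (-I * τ) ^ (1 / 2 : ℂ) * jacobiTheta τ := by
  have h := jacobiTheta_S_smul ⟨τ, hτ⟩
  rw [UpperHalfPlane.modular_S_smul] at h
  rwa [show (-1 : ℂ) / τ = (-τ)⁻¹ by rw [inv_neg, neg_div, one_div]]

/-- The part of the series over one residue. -/
def residuePart (N : ℕ) (r : ℤ) (ε : ℝ) : ℂ :=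
  ∑' k : ℤ, cexp (-(π * ε * ((k : ℂ) * N + r) ^ 2))

theorem theta_split (a : ℕ) [NeZero (2 * a)] {ε : ℝ} (hε : 0 < ε) :
    jacobiTheta (1 / (2 * a) + ε * I) =
      ∑ r : Fin (2 * a), cexp (π * I * (r : ℕ) ^ 2 / (2 * a)) *
        residuePart (2 * a) (r : ℕ) ε := by
  have ha : (a : ℂ) ≠ 0 := Nat.cast_ne_zero.2 fun h => NeZero.ne (2 * a) (by omega)
  have hτ : 0 < (1 / (2 * a) + ε * I : ℂ).im := by
    rw [show (1 / (2 * (a : ℂ))) = ((1 / (2 * a) : ℝ) : ℂ) by push_cast; rfl]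
    simpa using hε
  have hs : Summable fun p : ℤ × Fin (2 * a) => cexp (π * I *
      (((Int.divModEquiv (2 * a)).symm p : ℤ) : ℂ) ^ 2 * (1 / (2 * a) + ε * I)) :=
    (summable_theta hτ).comp_injective (Int.divModEquiv (2 * a)).symm.injective
  rw [jacobiTheta, ← (Int.divModEquiv (2 * a)).symm.tsum_eq, Summable.tsum_prod hs]
  simp only [tsum_fintype]
  refine (Summable.tsum_finsetSum fun r _ => ?_).trans (Finset.sum_congr rfl fun r _ => ?_)
  · exact hs.comp_injective (i := fun k => (k, r)) fun k k' h => (Prod.mk.inj h).1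
  rw [residuePart, ← tsum_mul_left]
  refine tsum_congr fun k => ?_
  rw [Int.divModEquiv_symm_apply, ← Complex.exp_add]
  refine exp_eq_exp_iff_exists_int.2 ⟨k ^ 2 * a + k * (r : ℕ), ?_⟩
  push_cast
  field_simp
  ring_nf
  simp only [I_sq]
  ring

theorem tendsto_residuePart (N : ℕ) [NeZero N] (r : ℤ) :
    Tendsto (fun ε : ℝ => (√ε : ℂ) * residuePart N r ε) (𝓝[>] 0) (𝓝 (1 / N)) := by
  have hN : (0 : ℝ) < N := Nat.cast_pos.2 (NeZero.pos N)
  have hNC : (N : ℂ) ≠ 0 := Nat.cast_ne_zero.2 (NeZero.ne N)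
  have key : ∀ ε : ℝ, 0 < ε → (√ε : ℂ) * residuePart N r ε = 1 / N *
      ∑' n : ℤ, cexp (2 * π * I * r * n / N) *
        (Real.exp (-(π * (n : ℝ) ^ 2 * (1 / (ε * N ^ 2)))) : ℂ) := fun ε hε => by
    have hpos : 0 < ε * (N : ℝ) ^ 2 := by positivity
    have hre : 0 < ((ε : ℂ) * N ^ 2).re := by
      rw [show (ε : ℂ) * N ^ 2 = ((ε * N ^ 2 : ℝ) : ℂ) by push_cast; rfl, ofReal_re]
      exact hpos
    have hc : cexp (-(π * ε * (r : ℂ) ^ 2)) * cexp (π * ε * (r : ℂ) ^ 2) = 1 := by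
      rw [← Complex.exp_add]
      simp
    have h := Complex.tsum_exp_neg_quadratic hre (-(ε * r * N))
    have hsq : ((ε : ℂ) * N ^ 2) ^ (1 / 2 : ℂ) = (√ε : ℂ) * N := by
      rw [show (ε : ℂ) * N ^ 2 = ((ε * N ^ 2 : ℝ) : ℂ) by push_cast; rfl,
        show (1 / 2 : ℂ) = ((1 / 2 : ℝ) : ℂ) by push_cast; rfl, ← ofReal_cpow hpos.le,
        ← Real.sqrt_eq_rpow, Real.sqrt_mul hε.le, Real.sqrt_sq hN.le]
      push_cast
      rfl
    have hs0 : (√ε : ℂ) ≠ 0 := ofReal_ne_zero.2 (Real.sqrt_pos.2 hε).ne'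
    rw [residuePart, tsum_congr (g := fun k : ℤ => cexp (-(π * ε * (r : ℂ) ^ 2)) *
      cexp (-π * (ε * N ^ 2) * k ^ 2 + 2 * π * (-(ε * r * N)) * k)) fun k => by
        rw [← Complex.exp_add]; ring_nf, tsum_mul_left, h, hsq,
      tsum_congr (g := fun n : ℤ => cexp (π * ε * (r : ℂ) ^ 2) * (cexp (2 * π * I * r * n / N) *
        (Real.exp (-(π * (n : ℝ) ^ 2 * (1 / (ε * N ^ 2)))) : ℂ))) fun n => by
          rw [ofReal_exp, ← Complex.exp_add, ← Complex.exp_add]
          congr 1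
          have : (ε : ℂ) ≠ 0 := ofReal_ne_zero.2 hε.ne'
          push_cast
          field_simp
          ring_nf
          simp only [I_sq]
          ring, tsum_mul_left, ← mul_assoc (cexp _), ← mul_assoc]
    field_simp
    rw [hc, one_mul]
  have hT : Tendsto (fun ε : ℝ => 1 / (ε * (N : ℝ) ^ 2)) (𝓝[>] 0) atTop := by
    refine ((tendsto_inv_nhdsGT_zero (𝕜 := ℝ)).atTop_mul_const
      (show (0 : ℝ) < ((N : ℝ) ^ 2)⁻¹ by positivity)).congr fun ε => ?_
    rw [one_div, mul_inv]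
  have hlim : Tendsto (fun ε : ℝ => ∑' n : ℤ, cexp (2 * π * I * r * n / N) *
      (Real.exp (-(π * (n : ℝ) ^ 2 * (1 / (ε * N ^ 2)))) : ℂ)) (𝓝[>] 0)
      (𝓝 (∑' n : ℤ, if n = 0 then 1 else 0)) := by
    refine tendsto_tsum_of_dominated_convergence
      (bound := fun n : ℤ => Real.exp (-(π * (n : ℝ) ^ 2))) ?_ (fun n => ?_) ?_
    · refine (summable_theta (τ := I) (by simp)).norm.congr fun n => ?_
      rw [Complex.norm_exp]
      congr 1
      rw [show (π : ℂ) * I * (n : ℂ) ^ 2 * I = ((-(π * (n : ℝ) ^ 2) : ℝ) : ℂ) by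
        push_cast; linear_combination (π : ℂ) * (n : ℂ) ^ 2 * I_sq, ofReal_re]
    · split_ifs with hn
      · simp [hn]
      · have hpos : 0 < π * (n : ℝ) ^ 2 := by positivity
        rw [tendsto_zero_iff_norm_tendsto_zero]
        refine (Real.tendsto_exp_atBot.comp (tendsto_neg_atTop_atBot.comp
          (hT.const_mul_atTop hpos))).congr fun ε => ?_
        rw [norm_mul, Complex.norm_exp, norm_real, Real.norm_of_nonneg (Real.exp_pos _).le,
          show 2 * (π : ℂ) * I * r * n / N = ((2 * π * r * n / N : ℝ) : ℂ) * I by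
            push_cast; ring]
        simp
    · filter_upwards [hT.eventually_ge_atTop 1] with ε hε n
      rw [norm_mul, Complex.norm_exp, norm_real, Real.norm_of_nonneg (Real.exp_pos _).le,
        show 2 * (π : ℂ) * I * r * n / N = ((2 * π * r * n / N : ℝ) : ℂ) * I by
          push_cast; ring]
      simp only [mul_re, ofReal_re, I_re, mul_zero, ofReal_im, I_im, zero_mul, sub_self,
        Real.exp_zero, one_mul]
      exact Real.exp_le_exp.2 (neg_le_neg (le_mul_of_one_le_right (by positivity) hε))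
  rw [tsum_ite_eq] at hlim
  have hlim' := hlim.const_mul (1 / (N : ℂ))
  rw [mul_one] at hlim'
  refine hlim'.congr' ?_
  filter_upwards [self_mem_nhdsWithin] with ε hε using (key ε hε).symm

/-- **The quadratic Gauss sum of even modulus.** -/
theorem lineSum_eq {a : ℕ} (ha : 0 < a) :
    lineSum a = (√(2 * a) : ℂ) * cexp (π * I / 4) := by
  have : NeZero (2 * a) := ⟨by omega⟩
  have haC : (2 * (a : ℂ)) ≠ 0 := by exact_mod_cast (by omega : 2 * a ≠ 0)
  have haR : (0 : ℝ) < 2 * a := by exact_mod_cast (by omega : 0 < 2 * a)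
  obtain ⟨τ, hτ⟩ : ∃ τ : ℝ → ℂ, ∀ ε, τ ε = 1 / (2 * a) + ε * I := ⟨_, fun _ => rfl⟩
  have h1 : Tendsto (fun ε : ℝ => (√ε : ℂ) * jacobiTheta (τ ε)) (𝓝[>] 0)
      (𝓝 (lineSum a / (2 * a))) := by
    have h : Tendsto (fun ε : ℝ => ∑ r : Fin (2 * a), cexp (π * I * (r : ℕ) ^ 2 / (2 * a)) *
        ((√ε : ℂ) * residuePart (2 * a) (r : ℕ) ε)) (𝓝[>] 0)
        (𝓝 (∑ r : Fin (2 * a), cexp (π * I * (r : ℕ) ^ 2 / (2 * a)) * (1 / (2 * a : ℕ)))) :=
      tendsto_finsetSum _ fun r _ => (tendsto_residuePart (2 * a) (r : ℕ)).const_mul _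
    rw [← Finset.sum_mul, ← lineSum, Nat.cast_mul, Nat.cast_ofNat, ← div_eq_mul_one_div] at h
    refine h.congr' ?_
    filter_upwards [self_mem_nhdsWithin] with ε hε
    rw [hτ, theta_split a hε, Finset.mul_sum]
    exact Finset.sum_congr rfl fun r _ => by ring
  have hc : Continuous τ := by
    rw [show τ = fun ε : ℝ => 1 / (2 * (a : ℂ)) + ε * I from funext hτ]
    fun_prop
  have hτ0 : Tendsto τ (𝓝[>] 0) (𝓝 (1 / (2 * a))) := by
    simpa [hτ] using (hc.tendsto 0).mono_left nhdsWithin_le_nhds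
  -- the point near infinity
  have him : ∀ ε : ℝ, 0 < ε → 0 < (τ ε).im := fun ε hε => by
    rw [hτ, show (1 / (2 * (a : ℂ))) = ((1 / (2 * a) : ℝ) : ℂ) by push_cast; rfl]
    simpa using hε
  have hre : ∀ ε : ℝ, (τ ε).re = 1 / (2 * a) := fun ε => by
    rw [hτ, show (1 / (2 * (a : ℂ))) = ((1 / (2 * a) : ℝ) : ℂ) by push_cast; rfl]
    simp
  have key : ∀ ε : ℝ, 0 < ε → (√ε : ℂ) * jacobiTheta (τ ε) *
      ((-I * τ ε) ^ (1 / 2 : ℂ) * (2 * a / τ ε) ^ (1 / 2 : ℂ)) =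
        jacobiTheta (((1 / (2 * a * ε) : ℝ) : ℂ) * (I * τ ε)) := fun ε hε => by
    have hτne : τ ε ≠ 0 := fun h => (him ε hε).ne' (by rw [h]; rfl)
    have hεC : (ε : ℂ) ≠ 0 := ofReal_ne_zero.2 hε.ne'
    obtain ⟨w, hw⟩ : ∃ w, w = 2 * (a : ℂ) + -1 / τ ε := ⟨_, rfl⟩
    have hwim : 0 < w.im := by
      rw [hw, show -1 / τ ε = (-τ ε)⁻¹ by rw [inv_neg, neg_div, one_div]]
      simp only [add_im, mul_im, re_ofNat, natCast_im, mul_zero, im_ofNat, natCast_re, zero_mul,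
        add_zero, zero_add, inv_im, neg_im, neg_neg]
      exact div_pos (him ε hε) (normSq_pos.2 (neg_ne_zero.2 hτne))
    have hwε : w = 2 * a * ε * I / τ ε := by
      rw [hw, eq_div_iff hτne, add_mul, div_mul_cancel₀ _ hτne, hτ, mul_add, mul_one_div,
        div_self haC]
      ring
    have e1 : -1 / w = ((1 / (2 * a * ε) : ℝ) : ℂ) * (I * τ ε) := by
      rw [hwε]
      push_cast
      field_simp
      simp [I_sq]
      ring
    have e2 : (-I * w) ^ (1 / 2 : ℂ) = (√ε : ℂ) * (2 * a / τ ε) ^ (1 / 2 : ℂ) := by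
      have hz : 2 * (a : ℂ) / τ ε ≠ 0 := div_ne_zero haC hτne
      have hwz : -I * w = (ε : ℂ) * (2 * a / τ ε) := by
        rw [hwε]
        field_simp
        simp [I_sq]
      rw [hwz, cpow_def_of_ne_zero (mul_ne_zero hεC hz), log_ofReal_mul hε hz, add_mul,
        Complex.exp_add, ← cpow_def_of_ne_zero hz, Real.sqrt_eq_rpow,
        Real.rpow_def_of_pos hε, ofReal_exp]
      push_cast
      ring_nf
    rw [← e1, theta_inversion hwim, e2, hw, theta_two_mul_add, theta_inversion (him ε hε)]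
    ring
  have hden : Tendsto (fun ε : ℝ => (-I * τ ε) ^ (1 / 2 : ℂ) * (2 * a / τ ε) ^ (1 / 2 : ℂ))
      (𝓝[>] 0) (𝓝 ((-I * (1 / (2 * a))) ^ (1 / 2 : ℂ) *
        (2 * a / (1 / (2 * a))) ^ (1 / 2 : ℂ))) := by
    refine ((hτ0.const_mul (-I)).cpow tendsto_const_nhds (.inr ?_)).mul
      ((tendsto_const_nhds.div hτ0 (one_div_ne_zero haC)).cpow tendsto_const_nhds (.inl ?_))
    · rw [show -I * (1 / (2 * (a : ℂ))) = -I * ((1 / (2 * a) : ℝ) : ℂ) by push_cast; rfl]
      simp [Nat.ne_of_gt ha]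
    · rw [show 2 * (a : ℂ) / (1 / (2 * a)) = ((2 * a / (1 / (2 * a)) : ℝ) : ℂ) by push_cast; rfl,
        ofReal_re]
      positivity
  have h2 : Tendsto (fun ε : ℝ => jacobiTheta (((1 / (2 * a * ε) : ℝ) : ℂ) * (I * τ ε)))
      (𝓝[>] 0) (𝓝 1) := by
    refine tendsto_sub_nhds_zero_iff.1 ((isBigO_at_im_infty_jacobiTheta_sub_one.comp_tendsto
      (tendsto_comap_iff.2 ?_)).trans_tendsto (Real.tendsto_exp_atBot.comp ?_))
    all_goals
      have hT : Tendsto (fun ε : ℝ => 1 / (2 * a * ε) * (1 / (2 * (a : ℝ)))) (𝓝[>] 0) atTop := by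
        refine Tendsto.atTop_mul_const (by positivity) ?_
        refine ((tendsto_inv_nhdsGT_zero (𝕜 := ℝ)).const_mul_atTop
          (show (0 : ℝ) < (2 * (a : ℝ))⁻¹ by positivity)).congr fun ε => ?_
        simp only [one_div, mul_inv]
    · refine hT.congr fun ε => ?_
      simp [hre]
    · refine (tendsto_neg_atTop_atBot.comp (hT.const_mul_atTop Real.pi_pos)).congr fun ε => ?_
      simp [hre]
  have h3 := tendsto_nhds_unique (h1.mul hden)
    (h2.congr' (by filter_upwards [self_mem_nhdsWithin] with ε hε using (key ε hε).symm))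
  -- evaluate the roots
  have hr : (2 * (a : ℂ) / (1 / (2 * a))) ^ (1 / 2 : ℂ) = 2 * a := by
    rw [show 2 * (a : ℂ) / (1 / (2 * a)) = (2 * (a : ℂ)) ^ 2 by field_simp, one_div,
      sq_cpow_two_inv (by simpa using haR)]
  have hi : (-I * (1 / (2 * (a : ℂ)))) ^ (1 / 2 : ℂ) =
      ((√(2 * a) : ℂ) * cexp (π * I / 4))⁻¹ := by
    rw [show -I * (1 / (2 * (a : ℂ))) = ((1 / (2 * a) : ℝ) : ℂ) * -I by push_cast; ring,
      cpow_def_of_ne_zero
        (mul_ne_zero (ofReal_ne_zero.2 (by positivity)) (neg_ne_zero.2 I_ne_zero)),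
      log_ofReal_mul (by positivity) (neg_ne_zero.2 I_ne_zero), Complex.log_neg_I,
      Real.sqrt_eq_rpow, Real.rpow_def_of_pos haR, ofReal_exp, ← Complex.exp_add,
      ← Complex.exp_neg, one_div (2 * (a : ℝ)), Real.log_inv]
    congr 1
    push_cast
    ring
  rw [hr, hi] at h3
  field_simp at h3
  rw [mul_comm (a : ℂ), mul_div_mul_right _ _ (Nat.cast_ne_zero.2 ha.ne'),
    div_eq_iff (ofReal_ne_zero.2 (Real.sqrt_pos.2 haR).ne')] at h3
  linear_combination h3

end FA.Milgram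

end
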