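import Fermat.Agent.IndefiniteUnimodular.Signature
import Fermat.Agent.Milgram.Gauss
import Mathlib.LinearAlgebra.FreeModule.Finite.CardQuotient

/-!
# The Gauss sum of an even lattice

The normalised sum over the discriminant group does not change under a change to a sublattice of
finite index, so it can be computed on an orthogonal basis: Milgram's formula.
-/

set_option autoImplicit false
set_option linter.unusedSectionVars false

noncomputable section

namespace FA.Milgram

open Complex Matrix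
open IndefiniteUnimodular (val EvenForm posIndex negIndex)
open scoped Real

variable {n : ℕ} {A P : Matrix (Fin n) (Fin n) ℤ}

/-- The discriminant group. -/
abbrev DiscGroup (A : Matrix (Fin n) (Fin n) ℤ) : Type :=
  (Fin n → ℤ) ⧸ LinearMap.range A.mulVecLin

/-- An integral vector as a rational one. -/
def ratVec (y : Fin n → ℤ) : Fin n → ℚ := fun i => (y i : ℚ)

/-- An integral matrix as a rational one. -/
def ratMat (A : Matrix (Fin n) (Fin n) ℤ) : Matrix (Fin n) (Fin n) ℚ :=
  (Int.castRingHom ℚ).mapMatrix A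

/-- `yᵀ A⁻¹ z`. -/
def dualPair (A : Matrix (Fin n) (Fin n) ℤ) (y z : Fin n → ℤ) : ℚ :=
  ratVec y ⬝ᵥ ((ratMat A)⁻¹ *ᵥ ratVec z)

/-- `exp (π i yᵀ A⁻¹ y)`. -/
def phase (A : Matrix (Fin n) (Fin n) ℤ) (y : Fin n → ℤ) : ℂ :=
  cexp (π * I * (dualPair A y y : ℚ))

/-- The Gauss sum over the discriminant group. -/
def gaussSum (A : Matrix (Fin n) (Fin n) ℤ) : ℂ :=
  ∑ᶠ q : DiscGroup A, phase A (Quotient.out q)

theorem ratVec_mulVec (M : Matrix (Fin n) (Fin n) ℤ) (y : Fin n → ℤ) :
    ratVec (M *ᵥ y) = ratMat M *ᵥ ratVec y := by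
  funext i
  simp [ratVec, ratMat, Matrix.mulVec, dotProduct]

theorem ratVec_add (y z : Fin n → ℤ) : ratVec (y + z) = ratVec y + ratVec z := by
  funext i
  simp [ratVec]

theorem ratVec_dot (y z : Fin n → ℤ) : ratVec y ⬝ᵥ ratVec z = ((y ⬝ᵥ z : ℤ) : ℚ) := by
  simp [ratVec, dotProduct]

theorem ratMat_mul (M N : Matrix (Fin n) (Fin n) ℤ) : ratMat (M * N) = ratMat M * ratMat N :=
  map_mul _ M N

theorem ratMat_transpose (M : Matrix (Fin n) (Fin n) ℤ) : ratMat Mᵀ = (ratMat M)ᵀ :=
  Matrix.transpose_map.symm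

theorem isUnit_ratMat (hA : A.det ≠ 0) : IsUnit (ratMat A).det := by
  rw [ratMat, ← RingHom.map_det, isUnit_iff_ne_zero]
  simpa using hA

theorem dualPair_comm (hA : A.IsSymm) (y z : Fin n → ℤ) : dualPair A y z = dualPair A z y := by
  rw [dualPair, dualPair, Matrix.dotProduct_mulVec, dotProduct_comm, ← Matrix.mulVec_transpose,
    Matrix.transpose_nonsing_inv, ← ratMat_transpose, hA.eq]

theorem dualPair_add_left (y z w : Fin n → ℤ) :
    dualPair A (y + z) w = dualPair A y w + dualPair A z w := by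
  rw [dualPair, dualPair, dualPair, ratVec_add, add_dotProduct]

theorem dualPair_add_right (y z w : Fin n → ℤ) :
    dualPair A y (z + w) = dualPair A y z + dualPair A y w := by
  rw [dualPair, dualPair, dualPair, ratVec_add, Matrix.mulVec_add, dotProduct_add]

theorem dualPair_mulVec (hA : A.det ≠ 0) (y z : Fin n → ℤ) :
    dualPair A y (A *ᵥ z) = ((y ⬝ᵥ z : ℤ) : ℚ) := by
  rw [dualPair, ratVec_mulVec, Matrix.mulVec_mulVec, nonsing_inv_mul _ (isUnit_ratMat hA),
    Matrix.one_mulVec, ratVec_dot]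

theorem exp_two_int (k : ℤ) : cexp (π * I * ((2 * k : ℤ) : ℚ)) = 1 :=
  Complex.exp_eq_one_iff.2 ⟨k, by push_cast; ring⟩

/-- An even vector changes nothing. -/
theorem phase_add (hs : A.IsSymm) (hd : A.det ≠ 0) (y z : Fin n → ℤ) :
    phase A (y + A *ᵥ z) = phase A y * cexp (π * I * ((2 * (y ⬝ᵥ z) + val A z : ℤ) : ℚ)) := by
  rw [phase, phase, dualPair_add_left, dualPair_add_right, dualPair_add_right,
    dualPair_mulVec hd, dualPair_mulVec hd, dualPair_comm hs (A *ᵥ z) y, dualPair_mulVec hd,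
    dotProduct_comm (A *ᵥ z) z, ← Complex.exp_add, val]
  push_cast
  ring_nf

theorem phase_periodic (hs : A.IsSymm) (hd : A.det ≠ 0) (he : EvenForm A) {y y' : Fin n → ℤ}
    (h : (Submodule.Quotient.mk y : DiscGroup A) = Submodule.Quotient.mk y') :
    phase A y = phase A y' := by
  obtain ⟨z, hz⟩ := (Submodule.Quotient.eq _).1 h
  rw [show y = y' + A *ᵥ z by rw [show A *ᵥ z = y - y' from hz]; abel, phase_add hs hd]
  obtain ⟨k, hk⟩ := even_iff_two_dvd.1 (he z)
  rw [hk, ← mul_add, exp_two_int, mul_one]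

theorem card_discGroup (hd : A.det ≠ 0) : Nat.card (DiscGroup A) = A.det.natAbs := by
  have e := Submodule.natAbs_det_equiv (LinearMap.range A.mulVecLin)
    (LinearEquiv.ofInjective A.mulVecLin (mulVec_injective_of_det_ne_zero hd))
  rw [← e, ← LinearMap.det_toLin' A]
  rfl

theorem finite_discGroup (hd : A.det ≠ 0) : Finite (DiscGroup A) :=
  Nat.finite_of_card_ne_zero (by rw [card_discGroup hd]; omega)

theorem gaussSum_eq_sum (hs : A.IsSymm) (hd : A.det ≠ 0) (he : EvenForm A) {κ : Type*} [Fintype κ]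
    (v : κ → Fin n → ℤ)
    (hv : Function.Bijective fun k => (Submodule.Quotient.mk (v k) : DiscGroup A)) :
    gaussSum A = ∑ k, phase A (v k) := by
  rw [gaussSum, ← finsum_comp_equiv (Equiv.ofBijective _ hv), finsum_eq_sum_of_fintype]
  exact Finset.sum_congr rfl fun k _ => phase_periodic hs hd he (Submodule.Quotient.mk_out _)

theorem det_congr_ne_zero (hd : A.det ≠ 0) (hP : P.det ≠ 0) : (Pᵀ * A * P).det ≠ 0 := by
  rw [det_mul, det_mul, det_transpose]
  exact mul_ne_zero (mul_ne_zero hP hd) hP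

theorem dualPair_congr (hP : P.det ≠ 0) (u w : Fin n → ℤ) :
    dualPair (Pᵀ * A * P) (Pᵀ *ᵥ u) (Pᵀ *ᵥ w) = dualPair A u w := by
  have hP' := isUnit_ratMat hP
  have hPt : IsUnit (ratMat P)ᵀ.det := by rwa [det_transpose]
  rw [dualPair, dualPair, ratVec_mulVec, ratVec_mulVec, ratMat_transpose, ratMat_mul, ratMat_mul,
    ratMat_transpose, Matrix.mul_inv_rev, Matrix.mul_inv_rev, Matrix.mulVec_mulVec,
    dotProduct_comm, dotProduct_transpose_mulVec, Matrix.mulVec_mulVec, dotProduct_comm]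
  simp only [Matrix.mul_assoc, nonsing_inv_mul _ hPt, Matrix.mul_one,
    mul_nonsing_inv_cancel_left _ _ hP']
  exact dotProduct_comm _ _

/-- The character of `ℤⁿ / P ℤⁿ` attached to `y`. -/
def chiP (P : Matrix (Fin n) (Fin n) ℤ) (y z : Fin n → ℤ) : ℂ :=
  cexp (2 * π * I * (dualPair P y z : ℚ))

theorem chiP_add (y z w : Fin n → ℤ) : chiP P y (z + w) = chiP P y z * chiP P y w := by
  rw [chiP, chiP, chiP, dualPair_add_right, ← Complex.exp_add]
  push_cast
  ring_nf

theorem chiP_periodic (hP : P.det ≠ 0) (y : Fin n → ℤ) {z z' : Fin n → ℤ}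
    (h : (Submodule.Quotient.mk z : DiscGroup P) = Submodule.Quotient.mk z') :
    chiP P y z = chiP P y z' := by
  obtain ⟨w, hw⟩ := (Submodule.Quotient.eq _).1 h
  rw [show z = z' + P *ᵥ w by rw [show P *ᵥ w = z - z' from hw]; abel, chiP_add,
    show chiP P y (P *ᵥ w) = 1 by
      rw [chiP, dualPair_mulVec hP]
      exact Complex.exp_eq_one_iff.2 ⟨y ⬝ᵥ w, by push_cast; ring⟩, mul_one]

theorem phase_shift (hs : A.IsSymm) (hd : A.det ≠ 0) (he : EvenForm A) (hP : P.det ≠ 0)
    (y z : Fin n → ℤ) :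
    phase (Pᵀ * A * P) (y + Pᵀ *ᵥ (A *ᵥ z)) = phase (Pᵀ * A * P) y * chiP P y z := by
  have hB : (Pᵀ * A * P).IsSymm := by
    simp [Matrix.IsSymm, Matrix.transpose_mul, hs.eq, Matrix.mul_assoc]
  have h2 : dualPair (Pᵀ * A * P) (Pᵀ *ᵥ (A *ᵥ z)) (Pᵀ *ᵥ (A *ᵥ z)) = ((val A z : ℤ) : ℚ) := by
    rw [dualPair_congr hP, dualPair_mulVec hd, dotProduct_comm, val]
  have h1 : dualPair (Pᵀ * A * P) y (Pᵀ *ᵥ (A *ᵥ z)) = dualPair P y z := by
    have hA' := isUnit_ratMat hd
    have hPt : IsUnit (ratMat P)ᵀ.det := by rw [det_transpose]; exact isUnit_ratMat hP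
    rw [dualPair, dualPair, ratVec_mulVec, ratVec_mulVec, ratMat_transpose, ratMat_mul, ratMat_mul,
      ratMat_transpose, Matrix.mul_inv_rev, Matrix.mul_inv_rev, Matrix.mulVec_mulVec,
      Matrix.mulVec_mulVec]
    simp only [Matrix.mul_assoc, nonsing_inv_mul_cancel_left _ _ hPt, nonsing_inv_mul _ hA',
      Matrix.mul_one]
  obtain ⟨k, hk⟩ := even_iff_two_dvd.1 (he z)
  rw [phase, phase, chiP, dualPair_add_left, dualPair_add_right, dualPair_add_right,
    dualPair_comm hB (Pᵀ *ᵥ (A *ᵥ z)) y, h1, h2, hk, ← Complex.exp_add]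
  refine exp_eq_exp_iff_exists_int.2 ⟨k, ?_⟩
  push_cast
  ring

/-- A character is trivial or sums to zero. -/
theorem sum_chiP (hP : P.det ≠ 0) [Fintype (DiscGroup P)] (y : Fin n → ℤ) :
    ((∃ u, Pᵀ *ᵥ u = y) → ∑ q : DiscGroup P, chiP P y (Quotient.out q) =
      (Fintype.card (DiscGroup P) : ℂ)) ∧
    ((¬ ∃ u, Pᵀ *ᵥ u = y) → ∑ q : DiscGroup P, chiP P y (Quotient.out q) = 0) := by
  refine ⟨?_, fun hno => ?_⟩
  · rintro ⟨u, rfl⟩
    have hPt : IsUnit (ratMat P)ᵀ.det := by rw [det_transpose]; exact isUnit_ratMat hP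
    rw [Finset.sum_eq_card_nsmul (b := (1 : ℂ)) fun q _ => ?_, nsmul_one, Finset.card_univ]
    rw [chiP, show dualPair P (Pᵀ *ᵥ u) (Quotient.out q) =
        ((u ⬝ᵥ Quotient.out q : ℤ) : ℚ) by
      rw [dualPair, ratVec_mulVec, ratMat_transpose, dotProduct_comm, dotProduct_transpose_mulVec,
        Matrix.mulVec_mulVec, mul_nonsing_inv _ (isUnit_ratMat hP), Matrix.one_mulVec, ratVec_dot]]
    exact Complex.exp_eq_one_iff.2 ⟨u ⬝ᵥ Quotient.out q, by push_cast; ring⟩
  · obtain ⟨w, hw⟩ : ∃ w, chiP P y w ≠ 1 := by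
      by_contra hall
      push Not at hall
      refine hno ?_
      have hint : ∀ j, ∃ k : ℤ, dualPair P y (Pi.single j 1) = k := fun j => by
        obtain ⟨k, hk⟩ := Complex.exp_eq_one_iff.1 (hall (Pi.single j 1))
        refine ⟨k, ?_⟩
        rw [mul_comm (k : ℂ)] at hk
        exact_mod_cast mul_left_cancel₀ two_pi_I_ne_zero hk
      choose u hu using hint
      refine ⟨u, funext fun i => ?_⟩
      have hw : ratVec u = (ratMat P)⁻¹ᵀ *ᵥ ratVec y := funext fun j => by
        rw [show ratVec u j = dualPair P y (Pi.single j 1) from (hu j).symm, dualPair,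
          show ratVec (Pi.single j 1) = Pi.single j (1 : ℚ) from funext fun l => by
            simp [ratVec, Pi.single_apply, apply_ite (Int.cast : ℤ → ℚ)],
          Matrix.dotProduct_mulVec, dotProduct_single_one, Matrix.mulVec_transpose]
      have h := congrArg (fun v => (ratMat P)ᵀ *ᵥ v) hw
      simp only [← ratMat_transpose, ← ratVec_mulVec] at h
      rw [Matrix.mulVec_mulVec, ratMat_transpose, ← Matrix.transpose_mul,
        nonsing_inv_mul _ (isUnit_ratMat hP), Matrix.transpose_one, Matrix.one_mulVec] at h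
      exact Int.cast_injective (α := ℚ) (congrFun h i)
    have key : (∑ q : DiscGroup P, chiP P y (Quotient.out q)) * chiP P y w =
        ∑ q : DiscGroup P, chiP P y (Quotient.out q) := by
      rw [Finset.sum_mul]
      refine (Finset.sum_congr rfl fun q _ => ?_).trans
        (Equiv.sum_comp (Equiv.addRight (Submodule.Quotient.mk w : DiscGroup P))
          fun q => chiP P y (Quotient.out q))
      rw [← chiP_add]
      refine chiP_periodic hP y ?_
      rw [Submodule.Quotient.mk_out, Submodule.Quotient.mk_add, Submodule.Quotient.mk_out]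
      rfl
    by_contra hne
    exact hw ((mul_eq_left₀ hne).1 key)

/-- **Invariance under a sublattice of finite index.** -/
theorem gaussSum_congr (hs : A.IsSymm) (hd : A.det ≠ 0) (he : EvenForm A) (hP : P.det ≠ 0) :
    gaussSum (Pᵀ * A * P) = (P.det.natAbs : ℂ) * gaussSum A := by
  classical
  obtain ⟨B, hB⟩ : ∃ B, B = Pᵀ * A * P := ⟨_, rfl⟩
  rw [← hB]
  have hBs : B.IsSymm := by
    simp [hB, Matrix.IsSymm, Matrix.transpose_mul, hs.eq, Matrix.mul_assoc]
  have hBd : B.det ≠ 0 := hB ▸ det_congr_ne_zero hd hP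
  have hBe : EvenForm B := fun x => by
    rw [hB, IndefiniteUnimodular.val_congr]
    exact he _
  have hAPd : (A * P).det ≠ 0 := by
    rw [det_mul]
    exact mul_ne_zero hd hP
  have hPt : (Pᵀ).det ≠ 0 := by rwa [det_transpose]
  have := finite_discGroup hd
  have := finite_discGroup hP
  have := finite_discGroup hBd
  have := finite_discGroup hAPd
  have := Fintype.ofFinite (DiscGroup A)
  have := Fintype.ofFinite (DiscGroup P)
  have := Fintype.ofFinite (DiscGroup B)
  have := Fintype.ofFinite (DiscGroup (A * P))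
  -- translation by the image of `Pᵀ A`
  have hG : gaussSum B = ∑ q : DiscGroup B, phase B (Quotient.out q) := finsum_eq_sum_of_fintype _
  have hps : ∀ y z, phase B (y + Pᵀ *ᵥ (A *ᵥ z)) = phase B y * chiP P y z := fun y z => by
    rw [hB]
    exact phase_shift hs hd he hP y z
  have hshift : ∀ z, gaussSum B =
      ∑ q : DiscGroup B, phase B (Quotient.out q) * chiP P (Quotient.out q) z := fun z => by
    rw [gaussSum_eq_sum hBs hBd hBe (fun q : DiscGroup B => Quotient.out q + Pᵀ *ᵥ (A *ᵥ z)) ?_]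
    · exact Finset.sum_congr rfl fun q _ => hps _ _
    · convert (Equiv.addRight
        (Submodule.Quotient.mk (Pᵀ *ᵥ (A *ᵥ z)) : DiscGroup B)).bijective using 1
      funext q
      rw [Submodule.Quotient.mk_add, Submodule.Quotient.mk_out]
      rfl
  obtain ⟨S, hS⟩ : ∃ S : Finset (DiscGroup B),
      ∀ q, q ∈ S ↔ ∃ u, Pᵀ *ᵥ u = Quotient.out q :=
    ⟨Finset.univ.filter fun q => ∃ u, Pᵀ *ᵥ u = Quotient.out q, fun q => by simp⟩
  have h1 : gaussSum B = ∑ q ∈ S, phase B (Quotient.out q) := by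
    have h := Finset.sum_congr (s₁ := (Finset.univ : Finset (DiscGroup P))) rfl
      fun z _ => hshift (Quotient.out z)
    rw [Finset.sum_const, Finset.card_univ, nsmul_eq_mul, Finset.sum_comm] at h
    refine mul_left_cancel₀ (Nat.cast_ne_zero.2 (Fintype.card_ne_zero (α := DiscGroup P))) ?_
    rw [h, Finset.mul_sum, ← Finset.sum_subset (Finset.subset_univ S) fun q _ hq => by
      rw [← Finset.mul_sum, (sum_chiP hP _).2 (mt (hS q).2 hq), mul_zero]]
    refine Finset.sum_congr rfl fun q hq => ?_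
    rw [← Finset.mul_sum, (sum_chiP hP _).1 ((hS q).1 hq), mul_comm]
  -- the image of the transpose
  have hS' : ∀ q, q ∈ S ↔ ∃ u, (Submodule.Quotient.mk (Pᵀ *ᵥ u) : DiscGroup B) = q := fun q => by
    rw [hS]
    refine ⟨fun ⟨u, hu⟩ => ⟨u, by rw [hu, Submodule.Quotient.mk_out]⟩, fun ⟨u, hu⟩ => ?_⟩
    obtain ⟨z, hz⟩ := (Submodule.Quotient.eq _).1
      (hu.trans (Submodule.Quotient.mk_out q).symm).symm
    refine ⟨u + A *ᵥ (P *ᵥ z), ?_⟩
    rw [Matrix.mulVec_add, Matrix.mulVec_mulVec z A P, Matrix.mulVec_mulVec z Pᵀ,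
      ← Matrix.mul_assoc, ← hB, show B *ᵥ z = Quotient.out q - Pᵀ *ᵥ u from hz]
    abel
  obtain ⟨ψ, hψ⟩ : ∃ ψ : DiscGroup (A * P) → DiscGroup B,
      ∀ q, ψ q = Submodule.Quotient.mk (Pᵀ *ᵥ Quotient.out q) := ⟨_, fun _ => rfl⟩
  have hmk : ∀ u v : Fin n → ℤ, (Submodule.Quotient.mk (Pᵀ *ᵥ u) : DiscGroup B) =
      Submodule.Quotient.mk (Pᵀ *ᵥ v) ↔
        (Submodule.Quotient.mk u : DiscGroup (A * P)) = Submodule.Quotient.mk v := fun u v => by
    rw [Submodule.Quotient.eq, Submodule.Quotient.eq, ← Matrix.mulVec_sub, LinearMap.mem_range,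
      LinearMap.mem_range]
    simp only [Matrix.mulVecLin_apply, hB, Matrix.mul_assoc, ← Matrix.mulVec_mulVec _ Pᵀ]
    exact exists_congr fun z => (mulVec_injective_of_det_ne_zero hPt).eq_iff
  choose! u hu using fun q => (hS' q).1
  have hphase : ∀ w, phase B (Pᵀ *ᵥ w) = phase A w := fun w => by
    rw [hB, phase, phase, dualPair_congr hP]
  have h2 : ∑ q ∈ S, phase B (Quotient.out q) =
      ∑ q : DiscGroup (A * P), phase A (Quotient.out q) := by
    refine Finset.sum_bij' (fun q _ => Submodule.Quotient.mk (u q)) (fun q _ => ψ q)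
      (fun _ _ => Finset.mem_univ _) (fun q _ => (hS' _).2 ⟨_, (hψ q).symm⟩)
      (fun q hq => ?_) (fun q _ => ?_) fun q hq => ?_
    · exact (hψ _).trans (((hmk _ _).2 (Submodule.Quotient.mk_out _)).trans (hu q hq))
    · exact ((hmk _ _).1 ((hu _ ((hS' _).2 ⟨_, (hψ q).symm⟩)).trans (hψ q))).trans
        (Submodule.Quotient.mk_out q)
    · rw [phase_periodic hBs hBd hBe ((Submodule.Quotient.mk_out q).trans (hu q hq).symm), hphase]
      obtain ⟨z, hz⟩ := (Submodule.Quotient.eq _).1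
        (Submodule.Quotient.mk_out (Submodule.Quotient.mk (u q) : DiscGroup (A * P))).symm
      refine phase_periodic hs hd he ((Submodule.Quotient.eq _).2 ⟨P *ᵥ z, ?_⟩)
      rw [Matrix.mulVecLin_apply, Matrix.mulVec_mulVec]
      exact hz
  rw [h1, h2]
  -- the fibres over the discriminant group
  obtain ⟨σ, hσ⟩ : ∃ σ : DiscGroup A × DiscGroup P → DiscGroup (A * P),
      ∀ x, σ x = Submodule.Quotient.mk (Quotient.out x.1 + A *ᵥ Quotient.out x.2) :=
    ⟨_, fun _ => rfl⟩
  have hσb : Function.Bijective σ := by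
    refine ⟨fun ⟨a, b⟩ ⟨a', b'⟩ h => ?_, fun q => ?_⟩
    · rw [hσ, hσ, Submodule.Quotient.eq, LinearMap.mem_range] at h
      obtain ⟨z, hz⟩ := h
      rw [Matrix.mulVecLin_apply, ← Matrix.mulVec_mulVec] at hz
      have ha : a = a' := by
        rw [← Submodule.Quotient.mk_out a, ← Submodule.Quotient.mk_out a', Submodule.Quotient.eq]
        refine ⟨P *ᵥ z - Quotient.out b + Quotient.out b', ?_⟩
        rw [Matrix.mulVecLin_apply, Matrix.mulVec_add, Matrix.mulVec_sub, hz]
        abel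
      subst ha
      have hb : b = b' := by
        rw [← Submodule.Quotient.mk_out b, ← Submodule.Quotient.mk_out b', Submodule.Quotient.eq]
        refine ⟨z, mulVec_injective_of_det_ne_zero hd ?_⟩
        simp only [Matrix.mulVecLin_apply, Matrix.mulVec_sub, hz]
        abel
      rw [hb]
    · obtain ⟨u, rfl⟩ := Submodule.Quotient.mk_surjective _ q
      obtain ⟨w, hw⟩ := (Submodule.Quotient.eq _).1
        (Submodule.Quotient.mk_out (Submodule.Quotient.mk u : DiscGroup A)).symm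
      obtain ⟨z, hz⟩ := (Submodule.Quotient.eq _).1
        (Submodule.Quotient.mk_out (Submodule.Quotient.mk w : DiscGroup P)).symm
      refine ⟨(Submodule.Quotient.mk u, Submodule.Quotient.mk w), ?_⟩
      rw [hσ, Submodule.Quotient.eq]
      refine ⟨-z, ?_⟩
      rw [Matrix.mulVecLin_apply] at hw hz ⊢
      rw [Matrix.mulVec_neg, ← Matrix.mulVec_mulVec, hz, Matrix.mulVec_sub, hw]
      abel
  rw [← card_discGroup hP, gaussSum, finsum_eq_sum_of_fintype, ← (Equiv.ofBijective σ hσb).sum_comp,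
    Fintype.sum_prod_type, Finset.mul_sum]
  refine Finset.sum_congr rfl fun a _ => ?_
  rw [Nat.card_eq_fintype_card, ← nsmul_eq_mul, ← Finset.card_univ]
  refine Finset.sum_eq_card_nsmul fun b _ => phase_periodic hs hd he ?_
  have hout := Submodule.Quotient.mk_out (σ (a, b))
  rw [Equiv.ofBijective_apply] at *
  rw [hσ] at hout ⊢
  obtain ⟨z, hz⟩ := (Submodule.Quotient.eq _).1 hout.symm
  refine (Submodule.Quotient.eq _).2 ⟨Quotient.out b - P *ᵥ z, ?_⟩
  rw [Matrix.mulVecLin_apply, ← Matrix.mulVec_mulVec] at hz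
  rw [Matrix.mulVecLin_apply, Matrix.mulVec_sub, hz]
  abel

theorem phase_diagonal {d : Fin n → ℤ} (hd : ∀ i, d i ≠ 0) (y : Fin n → ℤ) :
    phase (diagonal d) y = ∏ i, cexp (π * I * (y i : ℂ) ^ 2 / (d i : ℂ)) := by
  have hinv : (ratMat (diagonal d))⁻¹ = diagonal fun i => ((d i : ℚ))⁻¹ := by
    refine inv_eq_right_inv ?_
    rw [ratMat, RingHom.mapMatrix_apply, diagonal_map (map_zero _), diagonal_mul_diagonal,
      ← diagonal_one]
    exact congrArg diagonal (funext fun i => mul_inv_cancel₀ (by simpa using hd i))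
  rw [phase, dualPair, hinv, ← Complex.exp_sum, dotProduct, Rat.cast_sum, Finset.mul_sum]
  refine congrArg _ (Finset.sum_congr rfl fun i _ => ?_)
  rw [mulVec_diagonal, ratVec]
  push_cast
  ring

theorem gaussSum_diagonal {d : Fin n → ℤ} (hd : ∀ i, d i ≠ 0) (he : ∀ i, Even (d i)) :
    gaussSum (diagonal d) =
      ∏ i, ∑ r : Fin (d i).natAbs, cexp (π * I * ((r : ℕ) : ℂ) ^ 2 / (d i : ℂ)) := by
  have hs : (diagonal d).IsSymm := isSymm_diagonal _
  have hdet : (diagonal d).det ≠ 0 := by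
    rw [det_diagonal, Finset.prod_ne_zero_iff]
    exact fun i _ => hd i
  have heven : EvenForm (diagonal d) :=
    (IndefiniteUnimodular.evenForm_iff_diag hs).2 fun i => by simpa using he i
  rw [Fintype.prod_sum, gaussSum_eq_sum hs hdet heven
    (fun (f : ∀ i, Fin (d i).natAbs) (i : Fin n) => ((f i : ℕ) : ℤ)) ?_]
  · refine Finset.sum_congr rfl fun f _ => ?_
    rw [phase_diagonal hd]
    push_cast
    rfl
  refine ⟨fun f g h => funext fun i => Fin.ext ?_, fun q => ?_⟩
  · obtain ⟨z, hz⟩ := (Submodule.Quotient.eq _).1 h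
    have hzi := congrFun hz i
    rw [Matrix.mulVecLin_apply, mulVec_diagonal, Pi.sub_apply] at hzi
    have hdvd : ((d i).natAbs : ℤ) ∣ ((f i : ℕ) : ℤ) - ((g i : ℕ) : ℤ) :=
      Int.natAbs_dvd.2 ⟨z i, hzi.symm⟩
    have := (f i).isLt
    have := (g i).isLt
    have := Int.eq_zero_of_abs_lt_dvd hdvd (by rw [abs_lt]; omega)
    omega
  · obtain ⟨y, rfl⟩ := Submodule.Quotient.mk_surjective _ q
    refine ⟨fun i => ⟨(y i % d i).toNat, ?_⟩, (Submodule.Quotient.eq _).2
      ⟨fun i => -(y i / d i), funext fun i => ?_⟩⟩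
    · have := Int.emod_nonneg (y i) (hd i)
      have := Int.emod_lt (y i) (hd i)
      omega
    · rw [Matrix.mulVecLin_apply, mulVec_diagonal, Pi.sub_apply, Int.toNat_of_nonneg
        (Int.emod_nonneg _ (hd i))]
      linarith [Int.mul_ediv_add_emod (y i) (d i)]

/-- The sum of a line of either sign. -/
theorem line_value {d : ℤ} (hd : d ≠ 0) (he : Even d) :
    ∑ r : Fin d.natAbs, cexp (π * I * ((r : ℕ) : ℂ) ^ 2 / (d : ℂ)) =
      (√(d.natAbs : ℝ) : ℂ) * cexp (π * I * ((d.sign : ℤ) : ℂ) / 4) := by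
  obtain ⟨c, rfl⟩ := even_iff_two_dvd.1 he
  obtain ⟨a, rfl | rfl⟩ := Int.eq_nat_or_neg c
  · have ha : 0 < a := Nat.pos_of_ne_zero fun h => hd (by simp [h])
    have h := lineSum_eq ha
    rw [lineSum] at h
    rw [Int.natAbs_mul, Int.natAbs_natCast, show (2 : ℤ).natAbs = 2 from rfl,
      Int.sign_eq_one_of_pos (by omega)]
    push_cast
    rw [mul_one]
    exact h
  · have ha : 0 < a := Nat.pos_of_ne_zero fun h => hd (by simp [h])
    have h := congrArg (starRingEnd ℂ) (lineSum_eq ha)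
    rw [lineSum, map_sum, map_mul, conj_ofReal, ← exp_conj] at h
    rw [Int.natAbs_mul, Int.natAbs_neg, Int.natAbs_natCast, show (2 : ℤ).natAbs = 2 from rfl,
      Int.sign_eq_neg_one_of_neg (by omega)]
    push_cast
    rw [mul_neg_one]
    simp only [← exp_conj, map_div₀, map_mul, map_pow, conj_I, conj_ofReal, map_natCast,
      map_ofNat, mul_neg, neg_mul, neg_div] at h ⊢
    rw [← h]
    refine Finset.sum_congr rfl fun r _ => ?_
    rw [div_neg]

/-- An orthogonal basis of a sublattice of finite index. -/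
theorem exists_orthogonal (hs : A.IsSymm) (hd : A.det ≠ 0) (he : EvenForm A) :
    ∃ (P : Matrix (Fin n) (Fin n) ℤ) (d : Fin n → ℤ), P.det ≠ 0 ∧ (∀ i, d i ≠ 0) ∧
      (∀ i, Even (d i)) ∧ Pᵀ * A * P = diagonal d ∧
      posIndex A = (Finset.univ.filter fun i => 0 < d i).card ∧
      negIndex A = (Finset.univ.filter fun i => d i < 0).card := by
  obtain ⟨k, w, hw⟩ := IndefiniteUnimodular.exists_ratDiag hs
  obtain rfl : k = n := by simpa using hw.card_eq
  obtain ⟨P', R, h1, h2, h3⟩ := id hw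
  obtain ⟨N, y, hN, hy⟩ := IndefiniteUnimodular.exists_clear_denominators
    fun p : Fin k × Fin k => R p.1 p.2
  obtain ⟨P, hP⟩ : ∃ P : Matrix (Fin k) (Fin k) ℤ, P = Matrix.of fun i j => y (i, j) := ⟨_, rfl⟩
  have hPR : ratMat P = (N : ℚ) • R := by
    ext i j
    simpa [ratMat, hP] using hy (i, j)
  have hB : ratMat (Pᵀ * A * P) = diagonal fun i => (N : ℚ) ^ 2 * w i := by
    rw [ratMat_mul, ratMat_mul, ratMat_transpose, hPR,
      show ratMat A = P'ᵀ * diagonal w * P' from h3, Matrix.transpose_smul, Matrix.smul_mul,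
      Matrix.smul_mul, Matrix.mul_smul, smul_smul, Matrix.mul_assoc, Matrix.mul_assoc, h2,
      Matrix.mul_one, ← Matrix.mul_assoc, ← Matrix.transpose_mul, h2, Matrix.transpose_one,
      Matrix.one_mul, ← sq, ← diagonal_smul]
    rfl
  have hPd : P.det ≠ 0 := fun h => by
    have hu : (ratMat P).det = 0 := by
      rw [ratMat, ← RingHom.map_det, h, map_zero]
    rw [hPR, det_smul, mul_eq_zero] at hu
    refine hu.elim (pow_ne_zero _ (Int.cast_ne_zero.2 hN.ne')) ?_
    exact fun h0 => by simpa [h0] using congrArg Matrix.det h2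
  have hdiag : Pᵀ * A * P = diagonal fun i => (Pᵀ * A * P) i i := by
    ext i j
    rcases eq_or_ne i j with rfl | hij
    · rw [diagonal_apply_eq]
    · rw [diagonal_apply_ne _ hij]
      have := congrFun (congrFun hB i) j
      rw [diagonal_apply_ne _ hij] at this
      exact Int.cast_eq_zero.1 this
  have hval : ∀ i, (((Pᵀ * A * P) i i : ℤ) : ℚ) = (N : ℚ) ^ 2 * w i := fun i => by
    have := congrFun (congrFun hB i) i
    rwa [diagonal_apply_eq] at this
  have hN2 : (0 : ℚ) < (N : ℚ) ^ 2 := by positivity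
  refine ⟨P, fun i => (Pᵀ * A * P) i i, hPd, fun i h => ?_, fun i => ?_, hdiag, ?_, ?_⟩
  · have := det_congr_ne_zero hd hPd
    rw [hdiag, det_diagonal, Finset.prod_ne_zero_iff] at this
    exact this i (Finset.mem_univ i) h
  · have h := he (P *ᵥ Pi.single i 1)
    rwa [← IndefiniteUnimodular.val_congr, IndefiniteUnimodular.val_single] at h
  · rw [hw.posIndex_eq]
    refine congrArg Finset.card (Finset.filter_congr fun i _ => ?_)
    rw [← Int.cast_pos (R := ℚ), hval, mul_pos_iff_of_pos_left hN2]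
  · rw [hw.negIndex_eq]
    refine congrArg Finset.card (Finset.filter_congr fun i _ => ?_)
    rw [← Int.cast_lt_zero (R := ℚ), hval]
    exact ⟨fun h => mul_neg_of_pos_of_neg hN2 h, fun h => neg_of_mul_neg_right h hN2.le⟩

/-- **Milgram's formula.** -/
theorem milgram (hs : A.IsSymm) (hd : A.det ≠ 0) (he : EvenForm A) :
    gaussSum A = (√(A.det.natAbs : ℝ) : ℂ) *
      cexp (π * I * ((posIndex A : ℂ) - negIndex A) / 4) := by
  obtain ⟨P, d, hP, hd0, hde, hdiag, hpos, hneg⟩ := exists_orthogonal hs hd he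
  have hG := gaussSum_congr hs hd he hP
  rw [hdiag, gaussSum_diagonal hd0 hde, Finset.prod_congr rfl fun i _ => line_value (hd0 i) (hde i),
    Finset.prod_mul_distrib, ← Complex.exp_sum] at hG
  have hsign : ∑ i, ((d i).sign : ℂ) = (posIndex A : ℂ) - negIndex A := by
    rw [hpos, hneg, Finset.card_filter, Finset.card_filter, Nat.cast_sum, Nat.cast_sum,
      ← Finset.sum_sub_distrib]
    refine Finset.sum_congr rfl fun i _ => ?_
    rcases lt_trichotomy (d i) 0 with h | h | h
    · rw [Int.sign_eq_neg_one_of_neg h, if_neg h.not_gt, if_pos h]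
      simp
    · exact absurd h (hd0 i)
    · rw [Int.sign_eq_one_of_pos h, if_pos h, if_neg h.not_gt]
      simp
  rw [← Finset.sum_div, ← Finset.mul_sum, hsign] at hG
  have hsqrt : ∏ i, (√((d i).natAbs : ℝ) : ℂ) =
      (P.det.natAbs : ℂ) * (√(A.det.natAbs : ℝ) : ℂ) := by
    have h := congrArg (fun M : Matrix (Fin n) (Fin n) ℤ => M.det.natAbs) hdiag
    simp only [det_mul, det_transpose, det_diagonal, Int.natAbs_mul] at h
    rw [← ofReal_prod, ← Real.sqrt_prod _ fun i _ => Nat.cast_nonneg _, ← Nat.cast_prod,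
      show ∏ i, (d i).natAbs = P.det.natAbs * A.det.natAbs * P.det.natAbs from
        (map_prod Int.natAbsHom d Finset.univ).symm.trans h.symm]
    push_cast
    rw [mul_right_comm, Real.sqrt_mul (by positivity), Real.sqrt_mul_self (by positivity)]
    push_cast
    rfl
  rw [hsqrt, mul_assoc] at hG
  exact (mul_left_cancel₀ (Nat.cast_ne_zero.2 (Int.natAbs_ne_zero.2 hP)) hG).symm

end FA.Milgram

end
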